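-- Wiring for S01: Fermat's Last Theorem from the non-existence of Frey packages.
import Mathlib
import Fermat.Agent.S02

set_option autoImplicit false

namespace Fermat.Agent.S01

/-- Fermat's Last Theorem follows once no Frey package exists (uses Mathlib's exponents three and
four, the reduction to odd primes, and S02). -/
theorem flt_of_no_frey (hno : FreyPackage → False) : FermatLastTheorem := by
  apply FermatLastTheorem.of_odd_primes
  intro p pp hodd
  by_cases h3 : p = 3
  · subst h3; exact fermatLastTheoremThree
  have hp5 : 5 ≤ p := by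
    have h2 : 2 ≤ p := pp.two_le
    have hne2 : p ≠ 2 := by rintro rfl; exact absurd hodd (by decide)
    have hne4 : p ≠ 4 := by rintro rfl; exact absurd pp (by decide)
    omega
  rw [fermatLastTheoremFor_iff_int]
  intro a b c ha hb hc H
  obtain ⟨P⟩ := Fermat.Agent.S02.result a b c ha hb hc p pp hp5 H
  exact hno P

theorem statement_of_no_frey (hno : FreyPackage → False)
    (n : ℕ) (hn : 3 ≤ n) (a b c : ℕ) (ha : 0 < a) (hb : 0 < b) (hc : 0 < c) :
    a ^ n + b ^ n ≠ c ^ n :=
  flt_of_no_frey hno n hn a b c ha.ne' hb.ne' hc.ne'

end Fermat.Agent.S01
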